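/-
S20 package G2 (backup, helper65): the dual frame `Ψ = Δ • Φ⁻¹` of a frame consists of cusp forms.
Abstract form: from a jet operator (skeleton J2) and invertibility of the jet matrix (JA1').
-/
import Fermat.Agent.S20.Basic
import Fermat.Agent.S20.FrameLemmas

set_option autoImplicit false

open UpperHalfPlane ModularForm CongruenceSubgroup Matrix.SpecialLinearGroup Filter
open scoped MatrixGroups ModularForm Manifold Topology

noncomputable section

namespace Fermat.Agent.S20.H65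

/-! ### Holomorphy of determinants and inverses -/

theorem mdifferentiable_det {ι : Type} [Fintype ι] [DecidableEq ι] (M : ℍ → Matrix ι ι ℂ)
    (hM : ∀ i j, MDiff (fun τ => M τ i j)) : MDiff (fun τ => (M τ).det) := by
  have h : (fun τ => (M τ).det) =
      ∑ σ : Equiv.Perm ι, (fun _ : ℍ => ((Equiv.Perm.sign σ : ℤ) : ℂ)) *
        ∏ i, (fun τ => M τ (σ i) i) := by
    funext τ
    simp only [Matrix.det_apply, Finset.sum_apply, Pi.mul_apply, Finset.prod_apply]
    refine Finset.sum_congr rfl fun σ _ => ?_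
    rw [Units.smul_def, zsmul_eq_mul]
  rw [h]
  exact MDifferentiable.sum fun σ _ =>
    mdifferentiable_const.mul (MDifferentiable.prod fun i _ => hM _ _)

theorem mdifferentiable_inv_apply {ι : Type} [Fintype ι] [DecidableEq ι] (M : ℍ → Matrix ι ι ℂ)
    (hM : ∀ i j, MDiff (fun τ => M τ i j)) (hdet : ∀ τ, (M τ).det ≠ 0) (i j : ι) :
    MDiff (fun τ => (M τ)⁻¹ i j) := by
  have h : (fun τ => (M τ)⁻¹ i j) =
      (fun τ => ((M τ).det)⁻¹) * (fun τ => ((M τ).updateRow j (Pi.single i 1)).det) := by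
    funext τ
    rw [Pi.mul_apply, Matrix.inv_def, Matrix.smul_apply, Matrix.adjugate_apply,
      Ring.inverse_eq_inv', smul_eq_mul]
  rw [h]
  refine ((mdifferentiable_det M hM).inv hdet).mul (mdifferentiable_det _ fun i' j' => ?_)
  by_cases hi : i' = j
  · simp only [hi, Matrix.updateRow_self]
    exact mdifferentiable_const
  · simp only [Matrix.updateRow_ne hi]
    exact hM _ _

/-! ### The dual matrix -/

variable {N : ℕ} [NeZero N] {a : X N → ℤ}

/-- The dual matrix `Ψ(τ) = Δ(τ) • Φ(τ)⁻¹` (rows indexed by the frame, columns by the cosets). -/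
def dualMatrix (F : ∀ x, ModularForm (Γ0 N) (a x)) (τ : ℍ) : Matrix (X N) (X N) ℂ :=
  ModularForm.discriminant τ • (frameMatrix F τ)⁻¹

theorem frameMatrix_apply (F : ∀ x, ModularForm (Γ0 N) (a x)) (τ : ℍ) (c x : X N) :
    frameMatrix F τ c x = cosetFun (F x) c τ := rfl

theorem frameMatrix_smul (F : ∀ x, ModularForm (Γ0 N) (a x)) (g : SL(2, ℤ)) (τ : ℍ) (c x : X N) :
    frameMatrix F (g • τ) c x = denom g τ ^ a x * frameMatrix F τ (g⁻¹ • c) x := by
  rw [frameMatrix_apply, frameMatrix_apply, cosetFun_smul_apply]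

theorem mdifferentiable_frameMatrix (F : ∀ x, ModularForm (Γ0 N) (a x)) (c x : X N) :
    MDiff (fun τ => frameMatrix F τ c x) :=
  mdifferentiable_cosetFun (F x) c

theorem frameMatrix_inv_smul (F : ∀ x, ModularForm (Γ0 N) (a x))
    (hdet : ∀ τ, (frameMatrix F τ).det ≠ 0) (g : SL(2, ℤ)) (τ : ℍ) (x c : X N) :
    (frameMatrix F (g • τ))⁻¹ x c = denom g τ ^ (-a x) * (frameMatrix F τ)⁻¹ x (g⁻¹ • c) := by
  have hd : denom g τ ≠ 0 := denom_ne_zero g τ
  have key : (Matrix.of fun (x c : X N) => denom g τ ^ (-a x) * (frameMatrix F τ)⁻¹ x (g⁻¹ • c)) *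
      frameMatrix F (g • τ) = 1 := by
    ext x y
    rw [Matrix.mul_apply]
    have h1 : ∀ c : X N, (Matrix.of fun (x c : X N) =>
        denom g τ ^ (-a x) * (frameMatrix F τ)⁻¹ x (g⁻¹ • c)) x c * frameMatrix F (g • τ) c y =
        denom g τ ^ (-a x) * denom g τ ^ a y *
          ((frameMatrix F τ)⁻¹ x (g⁻¹ • c) * frameMatrix F τ (g⁻¹ • c) y) := by
      intro c
      rw [Matrix.of_apply, frameMatrix_smul]
      ring
    rw [Finset.sum_congr rfl fun c _ => h1 c, ← Finset.mul_sum]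
    have h2 : ∑ c : X N, (frameMatrix F τ)⁻¹ x (g⁻¹ • c) * frameMatrix F τ (g⁻¹ • c) y =
        ((frameMatrix F τ)⁻¹ * frameMatrix F τ) x y := by
      rw [Matrix.mul_apply]
      exact Equiv.sum_comp (MulAction.toPerm g⁻¹)
        (fun c' => (frameMatrix F τ)⁻¹ x c' * frameMatrix F τ c' y)
    rw [h2, Matrix.nonsing_inv_mul _ (isUnit_iff_ne_zero.mpr (hdet τ))]
    by_cases hxy : x = y
    · subst hxy
      rw [Matrix.one_apply_eq, mul_one, ← zpow_add₀ hd]
      simp
    · rw [Matrix.one_apply_ne hxy, mul_zero]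
  rw [Matrix.inv_eq_left_inv key, Matrix.of_apply]

theorem discriminant_smul (g : SL(2, ℤ)) (τ : ℍ) :
    ModularForm.discriminant (g • τ) = denom g τ ^ (12 : ℤ) * ModularForm.discriminant τ := by
  have h := congrFun (SlashInvariantForm.slash_action_generators_SL2Z
    ModularForm.discriminant_S_invariant ModularForm.discriminant_T_invariant g) τ
  rw [SL_slash_apply] at h
  have hd : denom g τ ≠ 0 := denom_ne_zero g τ
  rw [← h, zpow_neg, mul_comm (ModularForm.discriminant (g • τ)), ← mul_assoc,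
    mul_inv_cancel₀ (zpow_ne_zero _ hd), one_mul]

theorem dualMatrix_smul (F : ∀ x, ModularForm (Γ0 N) (a x))
    (hdet : ∀ τ, (frameMatrix F τ).det ≠ 0) (g : SL(2, ℤ)) (τ : ℍ) (x c : X N) :
    dualMatrix F (g • τ) x c = denom g τ ^ (12 - a x) * dualMatrix F τ x (g⁻¹ • c) := by
  have hd : denom g τ ≠ 0 := denom_ne_zero g τ
  simp only [dualMatrix, Matrix.smul_apply, smul_eq_mul]
  rw [frameMatrix_inv_smul F hdet, discriminant_smul, sub_eq_add_neg, zpow_add₀ hd]
  ring

theorem mdifferentiable_discriminant : MDiff ModularForm.discriminant :=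
  CuspForm.discriminant.holo'

theorem mdifferentiable_dualMatrix (F : ∀ x, ModularForm (Γ0 N) (a x))
    (hdet : ∀ τ, (frameMatrix F τ).det ≠ 0) (x c : X N) :
    MDiff (fun τ => dualMatrix F τ x c) := by
  have h : (fun τ => dualMatrix F τ x c) =
      ModularForm.discriminant * (fun τ => (frameMatrix F τ)⁻¹ x c) := by
    funext τ
    simp [dualMatrix]
  rw [h]
  exact mdifferentiable_discriminant.mul
    (mdifferentiable_inv_apply _ (fun c x => mdifferentiable_frameMatrix F c x) hdet x c)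

theorem dualMatrix_mul_frameMatrix (F : ∀ x, ModularForm (Γ0 N) (a x))
    (hdet : ∀ τ, (frameMatrix F τ).det ≠ 0) (τ : ℍ) :
    dualMatrix F τ * frameMatrix F τ = ModularForm.discriminant τ • (1 : Matrix (X N) (X N) ℂ) := by
  rw [dualMatrix, Matrix.smul_mul, Matrix.nonsing_inv_mul _ (isUnit_iff_ne_zero.mpr (hdet τ))]

theorem frameMatrix_mul_dualMatrix (F : ∀ x, ModularForm (Γ0 N) (a x))
    (hdet : ∀ τ, (frameMatrix F τ).det ≠ 0) (τ : ℍ) :
    frameMatrix F τ * dualMatrix F τ = ModularForm.discriminant τ • (1 : Matrix (X N) (X N) ℂ) := by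
  rw [dualMatrix, Matrix.mul_smul, Matrix.mul_nonsing_inv _ (isUnit_iff_ne_zero.mpr (hdet τ))]

/-! ### Vanishing at `i∞` -/

theorem norm_discriminant_le : ∃ C : ℝ, ∀ᶠ τ : ℍ in atImInfty,
    ‖ModularForm.discriminant τ‖ ≤ C * ‖Function.Periodic.qParam (N : ℝ) (τ : ℂ)‖ ^ N := by
  have hN : (N : ℝ) ≠ 0 := Nat.cast_ne_zero.mpr (NeZero.ne N)
  have h := CuspFormClass.exp_decay_atImInfty (h := 1) CuspForm.discriminant one_pos
    one_mem_strictPeriods_SL
  obtain ⟨C, hC⟩ := h.bound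
  refine ⟨C, hC.mono fun τ hτ => ?_⟩
  have e : ‖Function.Periodic.qParam (N : ℝ) (τ : ℂ)‖ ^ N = Real.exp (-2 * Real.pi * τ.im / 1) := by
    rw [Function.Periodic.norm_qParam, ← Real.exp_nat_mul]
    congr 1
    rw [coe_im]
    field_simp
  rw [e]
  simpa [Real.norm_of_nonneg (Real.exp_pos _).le] using hτ

theorem isZeroAtImInfty_dualMatrix (F : ∀ x, ModularForm (Γ0 N) (a x))
    (A : ℍ → Matrix (X N) (X N) ℂ)
    (hA : ∀ x, Tendsto (fun τ : ℍ => (A τ).mulVec (valVec (F x) τ)) atImInfty (𝓝 (jetVec (F x))))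
    (hAb : ∀ (τ : ℍ) (c c' : X N),
      ‖A τ c c'‖ ≤ N * (‖Function.Periodic.qParam (N : ℝ) (τ : ℂ)‖⁻¹) ^ (N - 1))
    (hjet : (Matrix.of fun (c : X N) (x : X N) => jetVec (F x) c).det ≠ 0) (x c : X N) :
    IsZeroAtImInfty (fun τ => dualMatrix F τ x c) := by
  have hN : (0 : ℝ) < N := Nat.cast_pos.mpr (NeZero.pos N)
  set L : Matrix (X N) (X N) ℂ := Matrix.of fun (c : X N) (x : X N) => jetVec (F x) c with hL
  set M : ℍ → Matrix (X N) (X N) ℂ := fun τ => A τ * frameMatrix F τ with hMdef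
  -- `M τ → L`
  have hM : Tendsto M atImInfty (𝓝 L) := by
    refine tendsto_pi_nhds.mpr fun c' => tendsto_pi_nhds.mpr fun y => ?_
    exact (tendsto_pi_nhds.mp (hA y)) c'
  -- `(M τ)⁻¹ → L⁻¹`
  have hcont : ContinuousAt Ring.inverse L.det := by
    rw [Ring.inverse_eq_inv']
    exact continuousAt_inv₀ hjet
  have hinv : Tendsto (fun τ => (M τ)⁻¹) atImInfty (𝓝 L⁻¹) :=
    (continuousAt_matrix_inv L hcont).tendsto.comp hM
  have hdetM : ∀ᶠ τ in atImInfty, (M τ).det ≠ 0 :=
    ((continuous_id.matrix_det.tendsto L).comp hM).eventually_ne hjet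
  -- uniform bound for the entries of `(M τ)⁻¹`
  obtain ⟨B, hB0, hB⟩ : ∃ B : ℝ, 0 ≤ B ∧ ∀ᶠ τ in atImInfty, ∀ y c' : X N, ‖(M τ)⁻¹ y c'‖ ≤ B := by
    refine ⟨∑ y : X N, ∑ c' : X N, (‖L⁻¹ y c'‖ + 1), ?_, ?_⟩
    · exact Finset.sum_nonneg fun _ _ => Finset.sum_nonneg fun _ _ => by positivity
    · rw [eventually_all]
      intro y
      rw [eventually_all]
      intro c'
      have h1 : Tendsto (fun τ => ‖(M τ)⁻¹ y c'‖) atImInfty (𝓝 ‖L⁻¹ y c'‖) :=
        ((tendsto_pi_nhds.mp ((tendsto_pi_nhds.mp hinv) y)) c').norm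
      have h2 : ∀ᶠ τ in atImInfty, ‖(M τ)⁻¹ y c'‖ < ‖L⁻¹ y c'‖ + 1 :=
        h1.eventually (gt_mem_nhds (lt_add_one _))
      refine h2.mono fun τ hτ => hτ.le.trans ?_
      have h3 : ‖L⁻¹ y c'‖ + 1 ≤ ∑ c'' : X N, (‖L⁻¹ y c''‖ + 1) :=
        Finset.single_le_sum (f := fun c'' : X N => ‖L⁻¹ y c''‖ + 1)
          (fun _ _ => by positivity) (Finset.mem_univ c')
      have h4 : ∑ c'' : X N, (‖L⁻¹ y c''‖ + 1) ≤ ∑ y' : X N, ∑ c'' : X N, (‖L⁻¹ y' c''‖ + 1) :=
        Finset.single_le_sum (f := fun y' : X N => ∑ c'' : X N, (‖L⁻¹ y' c''‖ + 1))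
          (fun _ _ => Finset.sum_nonneg fun _ _ => by positivity) (Finset.mem_univ y)
      exact h3.trans h4
  obtain ⟨C, hC⟩ := norm_discriminant_le (N := N)
  -- the final estimate
  have hq : Tendsto (fun τ : ℍ => ‖Function.Periodic.qParam (N : ℝ) (τ : ℂ)‖) atImInfty (𝓝 0) := by
    simpa using (qParam_tendsto_atImInfty hN).norm
  have hlim : Tendsto (fun τ : ℍ => C * (Fintype.card (X N) * (B * N)) *
      ‖Function.Periodic.qParam (N : ℝ) (τ : ℂ)‖) atImInfty (𝓝 0) := by
    simpa using hq.const_mul (C * (Fintype.card (X N) * (B * N)))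
  refine squeeze_zero_norm' ?_ hlim
  filter_upwards [hdetM, hB, hC] with τ h1 h2 h3
  set q : ℝ := ‖Function.Periodic.qParam (N : ℝ) (τ : ℂ)‖ with hqdef
  have hqpos : 0 < q := by
    rw [hqdef, Function.Periodic.norm_qParam]
    exact Real.exp_pos _
  have hinvΦ : (frameMatrix F τ)⁻¹ = (M τ)⁻¹ * A τ := by
    refine Matrix.inv_eq_left_inv ?_
    rw [Matrix.mul_assoc]
    exact Matrix.nonsing_inv_mul _ (isUnit_iff_ne_zero.mpr h1)
  have hentry : ‖(frameMatrix F τ)⁻¹ x c‖ ≤ Fintype.card (X N) * (B * (N * q⁻¹ ^ (N - 1))) := by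
    rw [hinvΦ, Matrix.mul_apply]
    refine (norm_sum_le _ _).trans ?_
    have : ∀ c' ∈ (Finset.univ : Finset (X N)), ‖(M τ)⁻¹ x c' * A τ c' c‖ ≤
        B * (N * q⁻¹ ^ (N - 1)) := by
      intro c' _
      rw [norm_mul]
      exact mul_le_mul (h2 x c') (hAb τ c' c) (norm_nonneg _) hB0
    refine (Finset.sum_le_sum this).trans ?_
    rw [Finset.sum_const, Finset.card_univ, nsmul_eq_mul]
  have hC0 : 0 ≤ C * q ^ N := (norm_nonneg _).trans h3
  have hqq : q ^ N * q⁻¹ ^ (N - 1) = q := by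
    obtain ⟨n, hn⟩ : ∃ n, N = n + 1 := Nat.exists_eq_succ_of_ne_zero (NeZero.ne N)
    rw [hn, Nat.add_sub_cancel, pow_succ, inv_pow, mul_assoc, mul_comm q, ← mul_assoc,
      mul_inv_cancel₀ (pow_ne_zero _ hqpos.ne'), one_mul]
  calc ‖dualMatrix F τ x c‖ = ‖ModularForm.discriminant τ‖ * ‖(frameMatrix F τ)⁻¹ x c‖ := by
        simp [dualMatrix]
    _ ≤ (C * q ^ N) * (Fintype.card (X N) * (B * (N * q⁻¹ ^ (N - 1)))) :=
        mul_le_mul h3 hentry (norm_nonneg _) hC0
    _ = C * (Fintype.card (X N) * (B * N)) * (q ^ N * q⁻¹ ^ (N - 1)) := by ring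
    _ = C * (Fintype.card (X N) * (B * N)) * q := by rw [hqq]

/-! ### The dual frame -/

/-- G2 (abstract form). Given a jet operator `A` (the two clauses of skeleton J2) and invertibility
of the jet matrix of the frame, the rows of `Δ • Φ⁻¹` are the coset translates of cusp forms of
weights `12 - a x`. -/
theorem exists_dual_frame_of {F : ∀ x, ModularForm (Γ0 N) (a x)}
    (hdet : ∀ τ, (frameMatrix F τ).det ≠ 0) (A : ℍ → Matrix (X N) (X N) ℂ)
    (hA : ∀ x, Tendsto (fun τ : ℍ => (A τ).mulVec (valVec (F x) τ)) atImInfty (𝓝 (jetVec (F x))))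
    (hAb : ∀ (τ : ℍ) (c c' : X N),
      ‖A τ c c'‖ ≤ N * (‖Function.Periodic.qParam (N : ℝ) (τ : ℂ)‖⁻¹) ^ (N - 1))
    (hjet : (Matrix.of fun (c : X N) (x : X N) => jetVec (F x) c).det ≠ 0) :
    ∃ G : ∀ x, CuspForm (Γ0 N) (12 - a x),
      (∀ (x c : X N) (τ : ℍ), cosetFun (G x) c τ = dualMatrix F τ x c) ∧
      (∀ (x y : X N) (τ : ℍ), ∑ c, cosetFun (G x) c τ * cosetFun (F y) c τ =
        if x = y then ModularForm.discriminant τ else 0) ∧
      (∀ (c c' : X N) (τ : ℍ), ∑ x, cosetFun (F x) c τ * cosetFun (G x) c' τ =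
        if c = c' then ModularForm.discriminant τ else 0) := by
  have hex : ∀ x : X N, ∃ f : CuspForm (Γ0 N) (12 - a x),
      ∀ c, cosetFun f c = fun τ => dualMatrix F τ x c := fun x =>
    exists_cuspForm_of_family (k := 12 - a x) (fun c τ => dualMatrix F τ x c)
      (fun c => mdifferentiable_dualMatrix F hdet x c)
      (fun g c τ => dualMatrix_smul F hdet g τ x c)
      (fun c => isZeroAtImInfty_dualMatrix F A hA hAb hjet x c)
  choose G hG using hex
  have hG' : ∀ (x c : X N) (τ : ℍ), cosetFun (G x) c τ = dualMatrix F τ x c :=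
    fun x c τ => congrFun (hG x c) τ
  refine ⟨G, hG', fun x y τ => ?_, fun c c' τ => ?_⟩
  · have h := congrFun (congrFun (dualMatrix_mul_frameMatrix F hdet τ) x) y
    rw [Matrix.mul_apply] at h
    simp only [hG', ← frameMatrix_apply]
    rw [h, Matrix.smul_apply, Matrix.one_apply, smul_eq_mul, mul_ite, mul_one, mul_zero]
  · have h := congrFun (congrFun (frameMatrix_mul_dualMatrix F hdet τ) c) c'
    rw [Matrix.mul_apply] at h
    simp only [hG', ← frameMatrix_apply]
    rw [h, Matrix.smul_apply, Matrix.one_apply, smul_eq_mul, mul_ite, mul_one, mul_zero]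

/-- G2' (abstract form). If the jet matrix of the frame is invertible and averaging jets over the
translations gives limits (skeleton J3), the limit vectors of the frame span the `T`-invariant
vectors. -/
theorem span_limVec_frame_of {F : ∀ x, ModularForm (Γ0 N) (a x)}
    (hjet : (Matrix.of fun (c : X N) (x : X N) => jetVec (F x) c).det ≠ 0)
    (havg : ∀ (x c : X N), (N : ℂ)⁻¹ * ∑ m ∈ Finset.range N,
      jetVec (F x) (ModularGroup.T ^ m • c) = limVec (F x) c) :
    Submodule.span ℂ (Set.range fun x => limVec (F x)) = invOf N ModularGroup.T := by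
  apply le_antisymm
  · rw [Submodule.span_le]
    rintro _ ⟨x, rfl⟩
    exact limVec_mem_invOf (F x)
  · intro w hw
    have hw' : ∀ c : X N, w (ModularGroup.T • c) = w c := hw
    set L : Matrix (X N) (X N) ℂ := Matrix.of fun (c : X N) (x : X N) => jetVec (F x) c with hL
    set lam : X N → ℂ := L⁻¹.mulVec w with hlam
    have h1 : L.mulVec lam = w := by
      rw [hlam, Matrix.mulVec_mulVec, Matrix.mul_nonsing_inv _ (isUnit_iff_ne_zero.mpr hjet),
        Matrix.one_mulVec]
    have h1' : ∀ c : X N, w c = ∑ x, jetVec (F x) c * lam x := by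
      intro c
      rw [← h1]
      rfl
    have hwT : ∀ (m : ℕ) (c : X N), w (ModularGroup.T ^ m • c) = w c := by
      intro m
      induction m with
      | zero => intro c; simp
      | succ m ih => intro c; rw [pow_succ', mul_smul, hw', ih]
    have hN : (N : ℂ) ≠ 0 := Nat.cast_ne_zero.mpr (NeZero.ne N)
    have h2 : w = ∑ x, lam x • limVec (F x) := by
      funext c
      have e1 : w c = (N : ℂ)⁻¹ * ∑ m ∈ Finset.range N, w (ModularGroup.T ^ m • c) := by
        rw [Finset.sum_congr rfl fun m _ => hwT m c, Finset.sum_const, Finset.card_range,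
          nsmul_eq_mul, ← mul_assoc, inv_mul_cancel₀ hN, one_mul]
      rw [e1, Finset.sum_congr rfl fun m _ => h1' (ModularGroup.T ^ m • c), Finset.sum_comm,
        Finset.mul_sum, Finset.sum_apply]
      refine Finset.sum_congr rfl fun x _ => ?_
      rw [Pi.smul_apply, smul_eq_mul, ← havg x c, ← Finset.sum_mul]
      ring
    rw [h2]
    exact Submodule.sum_mem _ fun x _ =>
      Submodule.smul_mem _ _ (Submodule.subset_span ⟨x, rfl⟩)

end Fermat.Agent.S20.H65
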