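import Mathlib

/-!
# Vector-valued Poincaré series (S20, package E)

For a set `X` with an action of `SL(2, ℤ)`, a base point `x₀ : X` and a bounded holomorphic
function `ψ : ℍ → ℂ` invariant under every translation `T ^ j` fixing `x₀`, we define the family
`poincare k ψ x₀ x`, `x : X`, of Poincaré series

  `poincare k ψ x₀ x z = ∑' v : Fin 2 → ℤ, twist ψ x₀ x v z * (v 0 * z + v 1) ^ (-k)`,

where `twist ψ x₀ x v z = ψ (γ • z)` for any `γ ∈ SL(2, ℤ)` with bottom row `v` and `γ • x = x₀`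
(and `0` if there is none).  We prove
`poincare k ψ x₀ x ∣[k] γ = poincare k ψ x₀ (γ⁻¹ • x)`, and, for `3 ≤ k`, holomorphy and
boundedness at `i∞`.  For a finite-index subgroup fixing `x` this gives a modular form.
-/

namespace Fermat.Agent.S20.H65

open UpperHalfPlane ModularForm EisensteinSeries CongruenceSubgroup Matrix
open scoped MatrixGroups Manifold

variable {X : Type*} [MulAction SL(2, ℤ) X]

/-- `ψ` is invariant under every translation `T ^ j` fixing the base point `x₀`. -/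
def IsPeriodicFor (ψ : ℍ → ℂ) (x₀ : X) : Prop :=
  ∀ j : ℤ, ModularGroup.T ^ j • x₀ = x₀ → ∀ z : ℍ, ψ (ModularGroup.T ^ j • z) = ψ z

open Classical in
/-- The twisting factor of the Poincaré family: `ψ (γ • z)` for any `γ` with `γ • x = x₀` and
bottom row `v`, and `0` if there is no such `γ`. -/
noncomputable def twist (ψ : ℍ → ℂ) (x₀ x : X) (v : Fin 2 → ℤ) (z : ℍ) : ℂ :=
  if h : ∃ γ : SL(2, ℤ), γ • x = x₀ ∧ (γ : Matrix (Fin 2) (Fin 2) ℤ) 1 = v then ψ (h.choose • z)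
  else 0

/-- Two elements of `SL(2, ℤ)` with the same bottom row differ by a power of `T` on the left. -/
theorem exists_T_zpow_mul_of_row_eq (γ γ' : SL(2, ℤ))
    (h : (γ' : Matrix (Fin 2) (Fin 2) ℤ) 1 = (γ : Matrix (Fin 2) (Fin 2) ℤ) 1) :
    ∃ n : ℤ, γ' = ModularGroup.T ^ n * γ := by
  have h0 : (γ' : Matrix (Fin 2) (Fin 2) ℤ) 1 0 = (γ : Matrix (Fin 2) (Fin 2) ℤ) 1 0 := congrFun h 0
  have h1 : (γ' : Matrix (Fin 2) (Fin 2) ℤ) 1 1 = (γ : Matrix (Fin 2) (Fin 2) ℤ) 1 1 := congrFun h 1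
  have hd := γ.det_coe
  have hd' := γ'.det_coe
  rw [Matrix.det_fin_two] at hd hd'
  rw [h0, h1] at hd'
  obtain ⟨n, hn⟩ : ∃ n : ℤ, n = (γ' : Matrix (Fin 2) (Fin 2) ℤ) 0 1 * (γ : Matrix (Fin 2) (Fin 2) ℤ) 0 0
    - (γ' : Matrix (Fin 2) (Fin 2) ℤ) 0 0 * (γ : Matrix (Fin 2) (Fin 2) ℤ) 0 1 := ⟨_, rfl⟩
  refine ⟨n, ?_⟩
  have key : (γ' : Matrix (Fin 2) (Fin 2) ℤ) = ((ModularGroup.T ^ n * γ : SL(2, ℤ)) : Matrix (Fin 2) (Fin 2) ℤ) := by
    rw [Matrix.SpecialLinearGroup.coe_mul, ModularGroup.coe_T_zpow]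
    ext i j
    fin_cases i <;> fin_cases j
    · simp [Matrix.mul_apply, Fin.sum_univ_two]
      rw [hn]
      linear_combination ((γ : Matrix (Fin 2) (Fin 2) ℤ) 0 0) * hd' - (γ' : Matrix (Fin 2) (Fin 2) ℤ) 0 0 * hd
    · simp [Matrix.mul_apply, Fin.sum_univ_two]
      rw [hn]
      linear_combination ((γ : Matrix (Fin 2) (Fin 2) ℤ) 0 1) * hd' - (γ' : Matrix (Fin 2) (Fin 2) ℤ) 0 1 * hd
    · simpa [Matrix.mul_apply, Fin.sum_univ_two] using h0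
    · simpa [Matrix.mul_apply, Fin.sum_univ_two] using h1
  exact Subtype.ext key

theorem twist_apply {ψ : ℍ → ℂ} {x₀ : X} (hper : IsPeriodicFor ψ x₀) (γ : SL(2, ℤ)) {x : X}
    (hγ : γ • x = x₀) (z : ℍ) :
    twist ψ x₀ x ((γ : Matrix (Fin 2) (Fin 2) ℤ) 1) z = ψ (γ • z) := by
  have h : ∃ γ' : SL(2, ℤ), γ' • x = x₀ ∧
      (γ' : Matrix (Fin 2) (Fin 2) ℤ) 1 = (γ : Matrix (Fin 2) (Fin 2) ℤ) 1 := ⟨γ, hγ, rfl⟩
  rw [twist, dif_pos h]
  obtain ⟨h1, h2⟩ := h.choose_spec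
  obtain ⟨n, hn⟩ := exists_T_zpow_mul_of_row_eq γ h.choose h2
  have hx : ModularGroup.T ^ n • x₀ = x₀ := by
    calc ModularGroup.T ^ n • x₀ = ModularGroup.T ^ n • γ • x := by rw [hγ]
      _ = h.choose • x := by rw [← mul_smul, ← hn]
      _ = x₀ := h1
  rw [hn, mul_smul]
  exact hper n hx (γ • z)

theorem twist_of_not_exists {ψ : ℍ → ℂ} {x₀ x : X} {v : Fin 2 → ℤ}
    (h : ¬ ∃ γ : SL(2, ℤ), γ • x = x₀ ∧ (γ : Matrix (Fin 2) (Fin 2) ℤ) 1 = v) (z : ℍ) :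
    twist ψ x₀ x v z = 0 := by
  rw [twist, dif_neg h]

theorem row_one_mul (γ₁ γ : SL(2, ℤ)) :
    ((γ₁ * γ : SL(2, ℤ)) : Matrix (Fin 2) (Fin 2) ℤ) 1 =
      (γ₁ : Matrix (Fin 2) (Fin 2) ℤ) 1 ᵥ* (γ : Matrix (Fin 2) (Fin 2) ℤ) := by
  rw [Matrix.SpecialLinearGroup.coe_mul]
  rfl

theorem twist_smul {ψ : ℍ → ℂ} {x₀ : X} (hper : IsPeriodicFor ψ x₀) (γ : SL(2, ℤ)) (x : X)
    (v : Fin 2 → ℤ) (z : ℍ) :
    twist ψ x₀ x v (γ • z) = twist ψ x₀ (γ⁻¹ • x) (v ᵥ* (γ : Matrix (Fin 2) (Fin 2) ℤ)) z := by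
  by_cases h : ∃ γ₁ : SL(2, ℤ), γ₁ • x = x₀ ∧ (γ₁ : Matrix (Fin 2) (Fin 2) ℤ) 1 = v
  · obtain ⟨γ₁, h1, rfl⟩ := h
    rw [twist_apply hper γ₁ h1, ← row_one_mul, twist_apply hper (γ₁ * γ) (by rw [mul_smul, smul_inv_smul, h1]),
      mul_smul]
  · rw [twist_of_not_exists h, twist_of_not_exists]
    rintro ⟨γ₂, h1, h2⟩
    refine h ⟨γ₂ * γ⁻¹, by rw [mul_smul, h1], ?_⟩
    rw [row_one_mul, h2, Matrix.vecMul_vecMul, ← Matrix.SpecialLinearGroup.coe_mul, mul_inv_cancel,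
      Matrix.SpecialLinearGroup.coe_one, Matrix.vecMul_one]

theorem norm_twist_le {ψ : ℍ → ℂ} {M : ℝ} (hbd : ∀ z, ‖ψ z‖ ≤ M) (x₀ x : X) (v : Fin 2 → ℤ)
    (z : ℍ) : ‖twist ψ x₀ x v z‖ ≤ M := by
  unfold twist
  split_ifs with h
  · exact hbd _
  · simpa using (norm_nonneg _).trans (hbd z)

/-- The Poincaré family. -/
noncomputable def poincare (k : ℤ) (ψ : ℍ → ℂ) (x₀ x : X) (z : ℍ) : ℂ :=
  ∑' v : Fin 2 → ℤ, twist ψ x₀ x v z * eisSummand k v z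

theorem summable_poincare {k : ℤ} (hk : 3 ≤ k) {ψ : ℍ → ℂ} {M : ℝ} (hbd : ∀ z, ‖ψ z‖ ≤ M)
    (x₀ x : X) (z : ℍ) : Summable fun v : Fin 2 → ℤ => ‖twist ψ x₀ x v z * eisSummand k v z‖ := by
  refine Summable.of_nonneg_of_le (fun _ => norm_nonneg _) (fun v => ?_)
    ((summable_norm_eisSummand hk z).mul_left M)
  rw [norm_mul]
  exact mul_le_mul_of_nonneg_right (norm_twist_le hbd x₀ x v z) (norm_nonneg _)

/-- Right multiplication by `γ ∈ SL(2, ℤ)` as a permutation of `Fin 2 → ℤ`. -/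
def vecMulEquiv (γ : SL(2, ℤ)) : (Fin 2 → ℤ) ≃ (Fin 2 → ℤ) where
  toFun v := v ᵥ* (γ : Matrix (Fin 2) (Fin 2) ℤ)
  invFun v := v ᵥ* ((γ⁻¹ : SL(2, ℤ)) : Matrix (Fin 2) (Fin 2) ℤ)
  left_inv v := by
    dsimp only
    rw [Matrix.vecMul_vecMul, ← Matrix.SpecialLinearGroup.coe_mul, mul_inv_cancel,
      Matrix.SpecialLinearGroup.coe_one, Matrix.vecMul_one]
  right_inv v := by
    dsimp only
    rw [Matrix.vecMul_vecMul, ← Matrix.SpecialLinearGroup.coe_mul, inv_mul_cancel,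
      Matrix.SpecialLinearGroup.coe_one, Matrix.vecMul_one]

@[simp] theorem vecMulEquiv_apply (γ : SL(2, ℤ)) (v : Fin 2 → ℤ) :
    vecMulEquiv γ v = v ᵥ* (γ : Matrix (Fin 2) (Fin 2) ℤ) := rfl

theorem poincare_slash {ψ : ℍ → ℂ} {x₀ : X} (hper : IsPeriodicFor ψ x₀) (k : ℤ) (x : X)
    (γ : SL(2, ℤ)) : poincare k ψ x₀ x ∣[k] γ = poincare k ψ x₀ (γ⁻¹ • x) := by
  ext1 z
  rw [SL_slash_apply]
  unfold poincare
  rw [← (vecMulEquiv γ).tsum_eq (fun v => twist ψ x₀ (γ⁻¹ • x) v z * eisSummand k v z),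
    ← tsum_mul_right]
  refine tsum_congr fun v => ?_
  rw [twist_smul hper, eisSummand_SL2_apply, vecMulEquiv_apply]
  have hne : denom γ z ≠ 0 := denom_ne_zero _ z
  rw [_root_.zpow_neg]
  field_simp


theorem poincare_tendstoLocallyUniformly {k : ℤ} (hk : 3 ≤ k) {ψ : ℍ → ℂ} {M : ℝ}
    (hbd : ∀ z, ‖ψ z‖ ≤ M) (x₀ x : X) :
    TendstoLocallyUniformly
      (fun (s : Finset (Fin 2 → ℤ)) ↦ (fun z => ∑ v ∈ s, twist ψ x₀ x v z * eisSummand k v z))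
      (poincare k ψ x₀ x) Filter.atTop := by
  have hk' : (2 : ℝ) < k := by norm_cast
  have p_sum : Summable fun v : Fin 2 → ℤ ↦ ‖v‖ ^ (-k) :=
    mod_cast (summable_one_div_norm_rpow hk')
  have hM : 0 ≤ M := (norm_nonneg _).trans (hbd UpperHalfPlane.I)
  rw [tendstoLocallyUniformly_iff_forall_isCompact]
  intro K hK
  obtain ⟨A, B, hB, HABK⟩ := subset_verticalStrip_of_isCompact hK
  refine (tendstoUniformlyOn_tsum
    (hu := (p_sum.mul_left <| r ⟨⟨A, B⟩, hB⟩ ^ (-k : ℝ)).mul_left M)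
    (fun p z hz ↦ ?_)).mono HABK
  rw [norm_mul]
  refine mul_le_mul (norm_twist_le hbd x₀ x p z) ?_ (norm_nonneg _) hM
  simpa only [eisSummand, one_div, ← _root_.zpow_neg, norm_zpow, ← Real.rpow_intCast,
    Int.cast_neg] using summand_bound_of_mem_verticalStrip (by positivity) p hB hz

theorem mdifferentiable_twist {ψ : ℍ → ℂ} (hhol : MDiff ψ) (x₀ x : X) (v : Fin 2 → ℤ) :
    MDiff (twist ψ x₀ x v) := by
  by_cases h : ∃ γ : SL(2, ℤ), γ • x = x₀ ∧ (γ : Matrix (Fin 2) (Fin 2) ℤ) 1 = v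
  · have : twist ψ x₀ x v = fun z => ψ (h.choose • z) := by
      funext z
      rw [twist, dif_pos h]
    rw [this]
    exact hhol.comp (UpperHalfPlane.mdifferentiable_smul (g := (h.choose : GL (Fin 2) ℝ)) (by simp))
  · have : twist ψ x₀ x v = fun _ => 0 := by
      funext z
      rw [twist, dif_neg h]
    rw [this]
    exact mdifferentiable_const

theorem mdifferentiable_eisSummand (k : ℤ) (v : Fin 2 → ℤ) : MDiff (eisSummand k v) := by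
  rw [UpperHalfPlane.mdifferentiable_iff]
  exact eisSummand_extension_differentiableOn k v

theorem mdifferentiable_poincare {k : ℤ} (hk : 3 ≤ k) {ψ : ℍ → ℂ} {M : ℝ}
    (hbd : ∀ z, ‖ψ z‖ ≤ M) (hhol : MDiff ψ) (x₀ x : X) : MDiff (poincare k ψ x₀ x) := by
  rw [UpperHalfPlane.mdifferentiable_iff]
  have hloc : TendstoLocallyUniformlyOn
      (fun (s : Finset (Fin 2 → ℤ)) ↦
        (fun z => ∑ v ∈ s, twist ψ x₀ x v z * eisSummand k v z) ∘ ofComplex)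
      (poincare k ψ x₀ x ∘ ofComplex) Filter.atTop {z : ℂ | 0 < z.im} := by
    rw [← upperHalfPlaneSet, ← UpperHalfPlane.range_coe, ← Set.image_univ]
    apply TendstoLocallyUniformlyOn.comp (s := ⊤) _ _ _ (OpenPartialHomeomorph.continuousOn_symm _)
    · simp only [Set.top_eq_univ, tendstoLocallyUniformlyOn_univ]
      exact poincare_tendstoLocallyUniformly hk hbd x₀ x
    · intro _ _
      trivial
  refine hloc.differentiableOn (Filter.Eventually.of_forall fun s => ?_) isOpen_upperHalfPlaneSet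
  rw [← UpperHalfPlane.mdifferentiable_iff]
  have : (fun z => ∑ v ∈ s, twist ψ x₀ x v z * eisSummand k v z) =
      ∑ v ∈ s, (twist ψ x₀ x v * eisSummand k v) := by
    funext z
    simp
  rw [this]
  exact MDifferentiable.sum fun v _ => (mdifferentiable_twist hhol x₀ x v).mul (mdifferentiable_eisSummand k v)


theorem norm_poincare_le {k : ℤ} (hk : 3 ≤ k) {ψ : ℍ → ℂ} {M : ℝ} (hbd : ∀ z, ‖ψ z‖ ≤ M)
    (x₀ x : X) (z : ℍ) :
    ‖poincare k ψ x₀ x z‖ ≤ M * ∑' v : Fin 2 → ℤ, ‖eisSummand k v z‖ := by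
  unfold poincare
  refine (norm_tsum_le_tsum_norm (summable_poincare hk hbd x₀ x z)).trans ?_
  rw [← tsum_mul_left]
  refine (summable_poincare hk hbd x₀ x z).tsum_le_tsum (fun v => ?_)
    ((summable_norm_eisSummand hk z).mul_left M)
  rw [norm_mul]
  exact mul_le_mul_of_nonneg_right (norm_twist_le hbd x₀ x v z) (norm_nonneg _)

theorem tsum_norm_eisSummand_T_zpow_smul (k : ℤ) (n : ℤ) (z : ℍ) :
    ∑' v : Fin 2 → ℤ, ‖eisSummand k v (ModularGroup.T ^ n • z)‖ =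
      ∑' v : Fin 2 → ℤ, ‖eisSummand k v z‖ := by
  rw [← (vecMulEquiv (ModularGroup.T ^ n)).tsum_eq (fun v => ‖eisSummand k v z‖)]
  refine tsum_congr fun v => ?_
  rw [eisSummand_SL2_apply, vecMulEquiv_apply, norm_mul]
  have : denom ((ModularGroup.T ^ n : SL(2, ℤ))) z = 1 := by
    rw [ModularGroup.denom_apply, ModularGroup.coe_T_zpow]
    simp
  rw [this]
  simp

theorem isBoundedAtImInfty_poincare {k : ℤ} (hk : 3 ≤ k) {ψ : ℍ → ℂ} {M : ℝ}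
    (hbd : ∀ z, ‖ψ z‖ ≤ M) (x₀ x : X) : IsBoundedAtImInfty (poincare k ψ x₀ x) := by
  have hM : 0 ≤ M := (norm_nonneg _).trans (hbd UpperHalfPlane.I)
  have hk' : (2 : ℝ) < k := by norm_cast
  rw [UpperHalfPlane.isBoundedAtImInfty_iff]
  refine ⟨M * ∑' (v : Fin 2 → ℤ), r ⟨⟨((1 : ℕ) : ℝ), 2⟩, Nat.ofNat_pos⟩ ^ (-k) * ‖v‖ ^ (-k),
    2, ?_⟩
  intro z hz
  obtain ⟨n, hn⟩ := ModularGroup_T_zpow_mem_verticalStrip z (N := 1) one_pos
  refine (norm_poincare_le hk hbd x₀ x z).trans (mul_le_mul_of_nonneg_left ?_ hM)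
  rw [← tsum_norm_eisSummand_T_zpow_smul k (((1 : ℕ) : ℤ) * n) z]
  apply (summable_norm_eisSummand hk _).tsum_le_tsum _
  · exact_mod_cast (summable_one_div_norm_rpow hk').mul_left <|
      r ⟨⟨((1 : ℕ) : ℝ), 2⟩, Nat.ofNat_pos⟩ ^ (-k)
  · intro v
    simp_rw [eisSummand, norm_zpow]
    exact_mod_cast summand_bound_of_mem_verticalStrip (lt_trans two_pos hk').le v two_pos
      (verticalStrip_anti_right ((1 : ℕ) : ℝ) hz hn)


/-- The Poincaré series as a modular form for any finite-index subgroup fixing `x`. -/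
noncomputable def poincareMF (Γ : Subgroup SL(2, ℤ)) [Γ.FiniteIndex] {k : ℤ} (hk : 3 ≤ k)
    {ψ : ℍ → ℂ} {x₀ : X} (hper : IsPeriodicFor ψ x₀) {M : ℝ} (hbd : ∀ z, ‖ψ z‖ ≤ M)
    (hhol : MDiff ψ) (x : X) (hx : ∀ γ ∈ Γ, γ • x = x) :
    ModularForm (Γ : Subgroup (GL (Fin 2) ℝ)) k where
  toFun := poincare k ψ x₀ x
  slash_action_eq' A hA := by
    obtain ⟨A, hA, rfl⟩ := hA
    have : A⁻¹ • x = x := hx _ (inv_mem hA)
    simpa [SpecialLinearGroup.mapGL, ← SL_slash, this] using poincare_slash hper k x A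
  holo' := mdifferentiable_poincare hk hbd hhol x₀ x
  bdd_at_cusps' {c} hc := by
    rw [Subgroup.IsArithmetic.isCusp_iff_isCusp_SL2Z] at hc
    rw [OnePoint.isBoundedAt_iff_forall_SL2Z hc]
    intro γ _
    have h := poincare_slash hper k x γ
    rw [show (poincare k ψ x₀ x ∣[k] γ) = poincare k ψ x₀ (γ⁻¹ • x) from h]
    exact isBoundedAtImInfty_poincare hk hbd x₀ _

theorem poincareMF_apply (Γ : Subgroup SL(2, ℤ)) [Γ.FiniteIndex] {k : ℤ} (hk : 3 ≤ k)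
    {ψ : ℍ → ℂ} {x₀ : X} (hper : IsPeriodicFor ψ x₀) {M : ℝ} (hbd : ∀ z, ‖ψ z‖ ≤ M)
    (hhol : MDiff ψ) (x : X) (hx : ∀ γ ∈ Γ, γ • x = x) (z : ℍ) :
    poincareMF Γ hk hper hbd hhol x hx z = poincare k ψ x₀ x z := rfl

theorem coe_poincareMF (Γ : Subgroup SL(2, ℤ)) [Γ.FiniteIndex] {k : ℤ} (hk : 3 ≤ k)
    {ψ : ℍ → ℂ} {x₀ : X} (hper : IsPeriodicFor ψ x₀) {M : ℝ} (hbd : ∀ z, ‖ψ z‖ ≤ M)
    (hhol : MDiff ψ) (x : X) (hx : ∀ γ ∈ Γ, γ • x = x) :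
    ⇑(poincareMF Γ hk hper hbd hhol x hx) = poincare k ψ x₀ x := rfl

end Fermat.Agent.S20.H65
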